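import Mathlib
import Fermat.Agent.S05.AddSub

set_option autoImplicit false

/-!
# Field-level correctness of the `x`-only Montgomery ladder (S13, package L2, helper16)

For a nonsingular point `P = (x, y)` of a Weierstrass curve over a field and sequences
`X Z : ℕ → F` satisfying the ladder recursion, `(X n : Z n)` is the projective `x`-coordinate of
`n • P`: `Z n = 0 ↔ n • P = 0`, `X n ≠ 0` when `Z n = 0`, and `X n = x(n • P) * Z n` otherwise.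
-/

namespace Fermat.Agent.S13.H16

open WeierstrassCurve Fermat.Agent.S05

universe u

variable {F : Type u} [Field F] [DecidableEq F]

/-- `(X : Z)` is the projective `x`-coordinate of the point `Q`. -/
def LadInv {W : Affine F} (Q : W.Point) (X Z : F) : Prop :=
  (Z = 0 ↔ Q = 0) ∧ (Z = 0 → X ≠ 0) ∧ (Q ≠ 0 → X = xOf Q * Z)

omit [DecidableEq F] in
/-- At a point with `F_y = 0`, the numerator of the duplication formula is `F_x ^ 2`. -/
lemma phi2_eq_sq {W : Affine F} {x y : F} (h : W.Equation x y) (hy : y = W.negY x y) :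
    x ^ 4 - W.b₄ * x ^ 2 - 2 * W.b₆ * x - W.b₈ =
      (W.a₁ * y - (3 * x ^ 2 + 2 * W.a₂ * x + W.a₄)) ^ 2 := by
  rw [Affine.equation_iff] at h
  have h3 : W.a₃ = -2 * y - W.a₁ * x := by
    simp only [Affine.negY] at hy
    linear_combination hy
  have h6 : W.a₆ = y ^ 2 + W.a₁ * x * y + W.a₃ * y - x ^ 3 - W.a₂ * x ^ 2 - W.a₄ * x := by
    linear_combination -h
  simp only [b₄, b₆, b₈]
  generalize W.a₆ = a6 at *
  generalize W.a₃ = a3 at *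
  subst h6 h3
  ring

/-- The numerator of the duplication formula does not vanish at a point of order two. -/
lemma phi2_ne_zero {W : Affine F} {Q : W.Point} (hQ : Q ≠ 0) (h2 : Q + Q = 0) :
    xOf Q ^ 4 - W.b₄ * xOf Q ^ 2 - 2 * W.b₆ * xOf Q - W.b₈ ≠ 0 := by
  obtain ⟨x, y, h, rfl⟩ := exists_some_of_ne_zero hQ
  have hy : y = W.negY x y := by
    by_contra hy
    rw [Affine.Point.add_self_of_Y_ne hy] at h2
    exact Affine.Point.some_ne_zero _ h2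
  rw [xOf_some, phi2_eq_sq h.1 hy]
  apply pow_ne_zero
  rcases ((Affine.nonsingular_iff' x y).mp h).2 with h' | h'
  · exact h'
  · exfalso
    apply h'
    simp only [Affine.negY] at hy
    linear_combination hy

/-- The doubling step of the ladder. -/
theorem LadInv.dbl {W : Affine F} {Q : W.Point} {X Z : F} (hQ : LadInv Q X Z) :
    LadInv (Q + Q) (X ^ 4 - W.b₄ * X ^ 2 * Z ^ 2 - 2 * W.b₆ * X * Z ^ 3 - W.b₈ * Z ^ 4)
      (Z * (4 * X ^ 3 + W.b₂ * X ^ 2 * Z + 2 * W.b₄ * X * Z ^ 2 + W.b₆ * Z ^ 3)) := by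
  obtain ⟨h1, h2, h3⟩ := hQ
  by_cases hQ0 : Q = 0
  · have hZ : Z = 0 := h1.mpr hQ0
    have hX : X ≠ 0 := h2 hZ
    subst hQ0 hZ
    refine ⟨by simp, fun _ => ?_, fun h => absurd (by simp) h⟩
    simpa using hX
  · have hZ : Z ≠ 0 := fun h => hQ0 (h1.mp h)
    have hX : X = xOf Q * Z := h3 hQ0
    have eX : X ^ 4 - W.b₄ * X ^ 2 * Z ^ 2 - 2 * W.b₆ * X * Z ^ 3 - W.b₈ * Z ^ 4 =
        Z ^ 4 * (xOf Q ^ 4 - W.b₄ * xOf Q ^ 2 - 2 * W.b₆ * xOf Q - W.b₈) := by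
      rw [hX]; ring
    have eZ : Z * (4 * X ^ 3 + W.b₂ * X ^ 2 * Z + 2 * W.b₄ * X * Z ^ 2 + W.b₆ * Z ^ 3) =
        Z ^ 4 * (4 * xOf Q ^ 3 + W.b₂ * xOf Q ^ 2 + 2 * W.b₄ * xOf Q + W.b₆) := by
      rw [hX]; ring
    rw [eX, eZ]
    have hZ4 : Z ^ 4 ≠ 0 := pow_ne_zero 4 hZ
    by_cases hQQ : Q + Q = 0
    · have hpsi : 4 * xOf Q ^ 3 + W.b₂ * xOf Q ^ 2 + 2 * W.b₄ * xOf Q + W.b₆ = 0 := by
        obtain ⟨x, y, h, rfl⟩ := exists_some_of_ne_zero hQ0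
        have hy : y = W.negY x y := by
          by_contra hy
          rw [Affine.Point.add_self_of_Y_ne hy] at hQQ
          exact Affine.Point.some_ne_zero _ hQQ
        rw [xOf_some, psi2_sq_eq h.1]
        rw [← hy]; ring
      rw [hpsi, mul_zero]
      refine ⟨by simp [hQQ], fun _ => mul_ne_zero hZ4 (phi2_ne_zero hQ0 hQQ), fun h => absurd hQQ h⟩
    · have hpsi := psi2_ne_zero hQ0 hQQ
      refine ⟨?_, fun h => absurd h (mul_ne_zero hZ4 hpsi), fun _ => ?_⟩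
      · simp [hQQ, hZ4, hpsi]
      · rw [← xOf_dbl hQ0 hQQ]; ring

/-- The differential addition step of the ladder: `Q - R = P` is an affine point with
`x`-coordinate `x`. -/
theorem LadInv.dadd {W : Affine F} {Q R : W.Point} {X₂ Z₂ X₁ Z₁ : F} (hQ : LadInv Q X₂ Z₂)
    (hR : LadInv R X₁ Z₁) (hP : Q - R ≠ 0) :
    LadInv (Q + R)
      (2 * X₂ * X₁ * (X₂ * Z₁ + X₁ * Z₂) + W.b₂ * X₂ * X₁ * Z₂ * Z₁
        + W.b₄ * (X₂ * Z₁ + X₁ * Z₂) * Z₂ * Z₁ + W.b₆ * (Z₂ * Z₁) ^ 2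
        - xOf (Q - R) * (X₂ * Z₁ - X₁ * Z₂) ^ 2)
      ((X₂ * Z₁ - X₁ * Z₂) ^ 2) := by
  obtain ⟨q1, q2, q3⟩ := hQ
  obtain ⟨r1, r2, r3⟩ := hR
  by_cases hR0 : R = 0
  · -- `R = 0`, so `Q = P`
    have hZ1 : Z₁ = 0 := r1.mpr hR0
    have hX1 : X₁ ≠ 0 := r2 hZ1
    subst hR0 hZ1
    rw [sub_zero] at hP ⊢
    rw [add_zero]
    have hZ2 : Z₂ ≠ 0 := fun h => hP (q1.mp h)
    have hX2 : X₂ = xOf Q * Z₂ := q3 hP
    have hD : (X₂ * 0 - X₁ * Z₂) ^ 2 ≠ 0 := by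
      apply pow_ne_zero
      simpa using mul_ne_zero hX1 hZ2
    refine ⟨?_, fun h => absurd h hD, fun _ => ?_⟩
    · simp [hP, hX1, hZ2]
    · rw [hX2]; ring
  by_cases hQ0 : Q = 0
  · -- `Q = 0`, so `R = -P`
    have hZ2 : Z₂ = 0 := q1.mpr hQ0
    have hX2 : X₂ ≠ 0 := q2 hZ2
    subst hQ0 hZ2
    rw [zero_sub] at hP ⊢
    rw [zero_add, xOf_neg]
    have hZ1 : Z₁ ≠ 0 := fun h => hR0 (r1.mp h)
    have hX1 : X₁ = xOf R * Z₁ := r3 hR0
    have hD : (X₂ * Z₁ - X₁ * 0) ^ 2 ≠ 0 := by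
      apply pow_ne_zero
      simpa using mul_ne_zero hX2 hZ1
    refine ⟨?_, fun h => absurd h hD, fun _ => ?_⟩
    · simp [hR0, hX2, hZ1]
    · rw [hX1]; ring
  -- both nonzero
  have hZ1 : Z₁ ≠ 0 := fun h => hR0 (r1.mp h)
  have hX1 : X₁ = xOf R * Z₁ := r3 hR0
  have hZ2 : Z₂ ≠ 0 := fun h => hQ0 (q1.mp h)
  have hX2 : X₂ = xOf Q * Z₂ := q3 hQ0
  have eD : (X₂ * Z₁ - X₁ * Z₂) ^ 2 = (Z₂ * Z₁) ^ 2 * (xOf Q - xOf R) ^ 2 := by
    rw [hX1, hX2]; ring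
  have eT : 2 * X₂ * X₁ * (X₂ * Z₁ + X₁ * Z₂) + W.b₂ * X₂ * X₁ * Z₂ * Z₁
        + W.b₄ * (X₂ * Z₁ + X₁ * Z₂) * Z₂ * Z₁ + W.b₆ * (Z₂ * Z₁) ^ 2 =
      (Z₂ * Z₁) ^ 2 * (2 * (xOf Q + xOf R) * (xOf Q * xOf R) + W.b₂ * (xOf Q * xOf R)
        + W.b₄ * (xOf Q + xOf R) + W.b₆) := by
    rw [hX1, hX2]; ring
  have hZZ : (Z₂ * Z₁) ^ 2 ≠ 0 := pow_ne_zero 2 (mul_ne_zero hZ2 hZ1)
  rw [eT, eD]
  by_cases hx : xOf Q = xOf R
  · -- `Q = -R`
    have hQR : Q = -R := by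
      rcases (xOf_eq_iff hQ0 hR0).mp hx with h | h
      · exact absurd (by rw [h, sub_self]) hP
      · exact h
    have hsum : Q + R = 0 := by rw [hQR, neg_add_cancel]
    have hRR : R + R ≠ 0 := by
      intro h
      apply hP
      rw [hQR]
      have : -R = R := by
        rw [neg_eq_iff_add_eq_zero]; exact h
      rw [this, sub_self]
    have hpsi := psi2_ne_zero hR0 hRR
    rw [hx, sub_self]
    refine ⟨by simp [hsum], fun _ => ?_, fun h => absurd hsum h⟩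
    have : (Z₂ * Z₁) ^ 2 * (2 * (xOf R + xOf R) * (xOf R * xOf R) + W.b₂ * (xOf R * xOf R)
        + W.b₄ * (xOf R + xOf R) + W.b₆) - xOf (Q - R) * ((Z₂ * Z₁) ^ 2 * 0 ^ 2) =
        (Z₂ * Z₁) ^ 2 * (4 * xOf R ^ 3 + W.b₂ * xOf R ^ 2 + 2 * W.b₄ * xOf R + W.b₆) := by
      ring
    rw [this]
    exact mul_ne_zero hZZ hpsi
  · obtain ⟨hs, -, -, hsum⟩ := xOf_addsub hQ0 hR0 hx
    have hd : (xOf Q - xOf R) ^ 2 ≠ 0 := pow_ne_zero 2 (sub_ne_zero.mpr hx)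
    refine ⟨?_, fun h => absurd h (mul_ne_zero hZZ hd), fun _ => ?_⟩
    · simp [hs, hZZ, hd]
    · rw [← hsum]; ring

section Ladder

variable {W : Affine F} {x y : F} (h : W.Nonsingular x y) (X Z : ℕ → F)

/-- **Field-level correctness of the `x`-only ladder.** -/
theorem ladder_correct (hX0 : X 0 ≠ 0) (hZ0 : Z 0 = 0) (hX1 : X 1 = x * Z 1) (hZ1 : Z 1 ≠ 0)
    (hXe : ∀ n, X (2 * n) =
      X n ^ 4 - W.b₄ * X n ^ 2 * Z n ^ 2 - 2 * W.b₆ * X n * Z n ^ 3 - W.b₈ * Z n ^ 4)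
    (hZe : ∀ n, Z (2 * n) =
      Z n * (4 * X n ^ 3 + W.b₂ * X n ^ 2 * Z n + 2 * W.b₄ * X n * Z n ^ 2 + W.b₆ * Z n ^ 3))
    (hXo : ∀ n, X (2 * n + 1) =
      2 * X (n + 1) * X n * (X (n + 1) * Z n + X n * Z (n + 1))
        + W.b₂ * X (n + 1) * X n * Z (n + 1) * Z n
        + W.b₄ * (X (n + 1) * Z n + X n * Z (n + 1)) * Z (n + 1) * Z n
        + W.b₆ * (Z (n + 1) * Z n) ^ 2 - x * (X (n + 1) * Z n - X n * Z (n + 1)) ^ 2)
    (hZo : ∀ n, Z (2 * n + 1) = (X (n + 1) * Z n - X n * Z (n + 1)) ^ 2) (n : ℕ) :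
    LadInv (n • Affine.Point.some x y h) (X n) (Z n) := by
  induction n using Nat.strong_induction_on with
  | _ n ih =>
    rcases Nat.lt_or_ge n 2 with hn | hn
    · interval_cases n
      · rw [zero_nsmul]
        exact ⟨by simp [hZ0], fun _ => hX0, fun h => absurd rfl h⟩
      · rw [one_nsmul]
        refine ⟨?_, fun h => absurd h hZ1, fun _ => ?_⟩
        · simp [hZ1, Affine.Point.some_ne_zero h]
        · rw [xOf_some]; exact hX1
    · obtain ⟨k, rfl | rfl⟩ := Nat.even_or_odd' n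
      · have hk : k < 2 * k := by omega
        have := (ih k hk).dbl
        rw [two_mul, add_nsmul, ← two_mul, hXe, hZe]
        exact this
      · have hk : k < 2 * k + 1 := by omega
        have hk1 : k + 1 < 2 * k + 1 := by omega
        have hdiff : (k + 1) • Affine.Point.some x y h - k • Affine.Point.some x y h
            = Affine.Point.some x y h := by
          rw [add_nsmul, one_nsmul, add_sub_cancel_left]
        have := (ih (k + 1) hk1).dadd (ih k hk) (by rw [hdiff]; exact Affine.Point.some_ne_zero h)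
        rw [hdiff, xOf_some] at this
        rw [show 2 * k + 1 = (k + 1) + k by ring, add_nsmul, show (k + 1) + k = 2 * k + 1 by ring,
          hXo, hZo]
        exact this

/-- The link: `(2n+1) • P = 0` iff the ladder difference `X (n+1) * Z n - X n * Z (n+1)`
vanishes. -/
theorem nsmul_odd_eq_zero_iff (hX0 : X 0 ≠ 0) (hZ0 : Z 0 = 0) (hX1 : X 1 = x * Z 1)
    (hZ1 : Z 1 ≠ 0)
    (hXe : ∀ n, X (2 * n) =
      X n ^ 4 - W.b₄ * X n ^ 2 * Z n ^ 2 - 2 * W.b₆ * X n * Z n ^ 3 - W.b₈ * Z n ^ 4)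
    (hZe : ∀ n, Z (2 * n) =
      Z n * (4 * X n ^ 3 + W.b₂ * X n ^ 2 * Z n + 2 * W.b₄ * X n * Z n ^ 2 + W.b₆ * Z n ^ 3))
    (hXo : ∀ n, X (2 * n + 1) =
      2 * X (n + 1) * X n * (X (n + 1) * Z n + X n * Z (n + 1))
        + W.b₂ * X (n + 1) * X n * Z (n + 1) * Z n
        + W.b₄ * (X (n + 1) * Z n + X n * Z (n + 1)) * Z (n + 1) * Z n
        + W.b₆ * (Z (n + 1) * Z n) ^ 2 - x * (X (n + 1) * Z n - X n * Z (n + 1)) ^ 2)
    (hZo : ∀ n, Z (2 * n + 1) = (X (n + 1) * Z n - X n * Z (n + 1)) ^ 2) (n : ℕ) :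
    (2 * n + 1) • Affine.Point.some x y h = 0 ↔ X (n + 1) * Z n - X n * Z (n + 1) = 0 := by
  have := (ladder_correct h X Z hX0 hZ0 hX1 hZ1 hXe hZe hXo hZo (2 * n + 1)).1
  rw [← this, hZo]
  exact pow_eq_zero_iff two_ne_zero

end Ladder

end Fermat.Agent.S13.H16
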